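import Fermat.Statements.S42
import Fermat.Prelude.Def_GaloisRep_Residual

set_option autoImplicit false
set_option linter.style.haveILetI false

namespace Fermat.Agent.S42.Wiring

open FreyPackage WeierstrassCurve WeierstrassCurve.Affine.Point Polynomial

/-- `AlgebraicClosure ℚ` is an algebraic closure of `ℚ` for the `ℚ`-algebra structure that the
frozen statements use (`DivisionRing.toRatAlgebra`). -/
theorem isAlgClosureRat : IsAlgClosure ℚ (AlgebraicClosure ℚ) := by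
  have h2 : @IsAlgClosure ℚ (AlgebraicClosure ℚ) _ _ (AlgebraicClosure.instAlgebra ℚ)
      (by infer_instance) := inferInstance
  convert h2
  exact Subsingleton.elim _ _

/-- Trace and determinant read off from a monic quadratic characteristic polynomial. -/
theorem trace_det_of_charpoly {K V : Type} [Field K] [AddCommGroup V] [Module K V]
    [Module.Free K V] [Module.Finite K V]
    (h2 : Module.finrank K V = 2) (f : V →ₗ[K] V) (t d : K)
    (hf : LinearMap.charpoly f = X ^ 2 - C t * X + C d) :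
    LinearMap.trace K V f = t ∧ LinearMap.det f = d := by
  classical
  let b : Module.Basis (Fin 2) K V := Module.finBasisOfFinrankEq K V h2
  have h1 : (LinearMap.toMatrix b b f).charpoly = f.charpoly := LinearMap.charpoly_toMatrix f b
  rw [Matrix.charpoly_fin_two, hf] at h1
  have htr : LinearMap.trace K V f = Matrix.trace (LinearMap.toMatrix b b f) :=
    LinearMap.trace_eq_matrix_trace K b f
  have hdet : LinearMap.det f = Matrix.det (LinearMap.toMatrix b b f) :=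
    (LinearMap.det_toMatrix b f).symm
  have c1 := congrArg (fun q => Polynomial.coeff q 1) h1
  have c0 := congrArg (fun q => Polynomial.coeff q 0) h1
  rw [htr, hdet]
  constructor
  · simpa [Polynomial.coeff_X, Polynomial.coeff_C, -LinearMap.det_toMatrix] using c1
  · simpa [Polynomial.coeff_X, Polynomial.coeff_C, -LinearMap.det_toMatrix] using c0

/-- S42 from the statement of S29 plus the finite-level property of the Frey representation. -/
theorem of_S29
    (h29 : ∀ {N : ℕ} {g : CuspForm (CongruenceSubgroup.Gamma0 N) 2} (_ : g.IsNormalizedEigenform)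
      {p : ℕ} (_ : p.Prime) {k : Type} [Field k] [CharP k p]
      (φ : integralClosure ℤ ℂ →+* k),
      ∃ ρ : ResidualGaloisRep k, ρ.IsAttachedTo g φ ∧
        ∀ ℓ : ℕ, ℓ.Prime → ¬ ℓ ∣ N * p → ρ.IsUnramifiedAt ℓ)
    (P : FreyPackage)
    (hfrey : GaloisFactorsThroughFiniteLevel
      (galoisRepModuleEnd (K := AlgebraicClosure ℚ) ℚ P.freyCurve P.p)) :
    ∀ M : ℕ, 0 < M → P.EigenformResidualAttachmentAt M := by
  intro M _ g hg 𝔪 h𝔪 hp𝔪
  haveI := h𝔪
  letI : Field (integralClosure ℤ ℂ ⧸ 𝔪) := Ideal.Quotient.field 𝔪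
  haveI : CharP (integralClosure ℤ ℂ ⧸ 𝔪) P.p := by
    rw [CharP.charP_iff_prime_eq_zero P.pp]
    have : ((P.p : integralClosure ℤ ℂ) : integralClosure ℤ ℂ ⧸ 𝔪) = 0 :=
      Ideal.Quotient.eq_zero_iff_mem.mpr hp𝔪
    simpa using this
  letI : Algebra (ZMod P.p) (integralClosure ℤ ℂ ⧸ 𝔪) := ZMod.algebra _ P.p
  obtain ⟨ρ, hatt, -⟩ := h29 hg P.pp (Ideal.Quotient.mk 𝔪)
  obtain ⟨L₁, hL₁fin, hL₁⟩ := ρ.factorsThroughFiniteLevel
  obtain ⟨L₂, hL₂fin, hL₂⟩ := hfrey
  let L : IntermediateField ℚ (AlgebraicClosure ℚ) :=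
    IntermediateField.normalClosure ℚ ↥(L₁ ⊔ L₂) (AlgebraicClosure ℚ)
  haveI := isAlgClosureRat
  haveI : Normal ℚ (AlgebraicClosure ℚ) := IsAlgClosure.normal ℚ (AlgebraicClosure ℚ)
  haveI hLnormal : Normal ℚ ↥L := normalClosure.normal ℚ ↥(L₁ ⊔ L₂) (AlgebraicClosure ℚ)
  refine ⟨_, inferInstance, inferInstance, ρ.V, inferInstance, inferInstance, ρ.ρ,
    Ideal.Quotient.mk 𝔪, L, inferInstance, ?_, ?_, inferInstance, ?_, ?_⟩
  · haveI : FiniteDimensional ℚ ↥(L₁ ⊔ L₂) := IntermediateField.finiteDimensional_sup L₁ L₂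
    haveI : FiniteDimensional ℚ ↥L :=
      normalClosure.is_finiteDimensional ℚ ↥(L₁ ⊔ L₂) (AlgebraicClosure ℚ)
    exact { to_charZero := inferInstance, to_finiteDimensional := this }
  · exact IsGalois.mk
  · exact inferInstance
  · refine ⟨?_, ρ.finrank_eq, ?_, ?_, ?_⟩
    · intro x hx
      exact RingHom.mem_ker.mpr (Ideal.Quotient.eq_zero_iff_mem.mpr hx)
    · intro σ hσ
      have hfix : ∀ x ∈ L, σ x = x := by
        intro x hx
        have h1 := AlgEquiv.restrictNormal_commutes σ ↥L ⟨x, hx⟩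
        have h2 : σ.restrictNormal ↥L = 1 := MonoidHom.mem_ker.mp hσ
        rw [h2] at h1
        exact h1.symm
      have hle : L₁ ⊔ L₂ ≤ L := IntermediateField.le_normalClosure (L₁ ⊔ L₂)
      refine Subgroup.mem_inf.mpr ⟨MonoidHom.mem_ker.mpr ?_, MonoidHom.mem_ker.mpr ?_⟩
      · exact hL₂ σ fun x hx => hfix x (hle (le_sup_right (a := L₁) hx))
      · exact hL₁ σ fun x hx => hfix x (hle (le_sup_left (b := L₂) hx))
    · intro ℓ hℓ hℓM hℓp A hA τ hτ
      have hℓK : ((ℓ : ℕ) : integralClosure ℤ ℂ ⧸ 𝔪) ≠ 0 := by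
        intro h0
        have hdvd : P.p ∣ ℓ := (CharP.cast_eq_zero_iff (integralClosure ℤ ℂ ⧸ 𝔪) P.p ℓ).mp h0
        exact hℓp ((Nat.prime_dvd_prime_iff_eq P.pp hℓ).mp hdvd).symm
      obtain ⟨a, ha, hchar⟩ := hatt ℓ hℓ hℓM hℓK A hA τ hτ
      exact ⟨a, ha, (trace_det_of_charpoly ρ.finrank_eq (ρ.ρ τ) _ _ hchar).1⟩
    · intro ℓ hℓ hℓM hℓp A hA τ hτ
      have hℓK : ((ℓ : ℕ) : integralClosure ℤ ℂ ⧸ 𝔪) ≠ 0 := by
        intro h0
        have hdvd : P.p ∣ ℓ := (CharP.cast_eq_zero_iff (integralClosure ℤ ℂ ⧸ 𝔪) P.p ℓ).mp h0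
        exact hℓp ((Nat.prime_dvd_prime_iff_eq P.pp hℓ).mp hdvd).symm
      obtain ⟨a, ha, hchar⟩ := hatt ℓ hℓ hℓM hℓK A hA τ hτ
      exact (trace_det_of_charpoly ρ.finrank_eq (ρ.ρ τ) _ _ hchar).2

end Fermat.Agent.S42.Wiring
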