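/-
S42 — last-mile wiring (helper42).

`result_of_S30`: the frozen statement of S42 (`P.EigenformResidualAttachmentAt M` for every
Frey package `P` and level `M > 0`) from the frozen statement of S30, through
`S29.Wiring.of_S30` (helper80), `S42.Wiring.of_S29` and `Lib.TorsionFinite` (the Frey
representation factors through a finite level).

Once `Fermat.Agent.S30.result` exists, `Fermat/Agent/S42.lean` is the S42 template with the
imports `Fermat.Agent.S42.Final`, `Fermat.Agent.S30` and the proof term
`Fermat.Agent.S42.Final.result_of_S30 @Fermat.Agent.S30.result P`.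
-/
import Fermat.Agent.S42.Wiring
import Fermat.Agent.S29.Wiring
import Fermat.Agent.Lib.TorsionFinite

set_option autoImplicit false

namespace Fermat.Agent.S42.Final

open FreyPackage

/-- **S42 from the frozen statement of S29.** -/
theorem result_of_S29
    (h29 : ∀ {N : ℕ} {g : CuspForm (CongruenceSubgroup.Gamma0 N) 2} (_ : g.IsNormalizedEigenform)
      {p : ℕ} (_ : p.Prime) {k : Type} [Field k] [CharP k p]
      (φ : integralClosure ℤ ℂ →+* k),
      ∃ ρ : ResidualGaloisRep k, ρ.IsAttachedTo g φ ∧
        ∀ ℓ : ℕ, ℓ.Prime → ¬ ℓ ∣ N * p → ρ.IsUnramifiedAt ℓ)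
    (P : FreyPackage) : ∀ M : ℕ, 0 < M → P.EigenformResidualAttachmentAt M :=
  Fermat.Agent.S42.Wiring.of_S29 h29 P
    (Fermat.Agent.Lib.TorsionFinite.frey_galoisFactorsThroughFiniteLevel P)

/-- **S42 from the frozen statement of S30.** -/
theorem result_of_S30 (h30 : Fermat.Agent.S29.Wiring.S30Statement) (P : FreyPackage) :
    ∀ M : ℕ, 0 < M → P.EigenformResidualAttachmentAt M :=
  result_of_S29 (fun hg _ hp _ _ _ φ => Fermat.Agent.S29.Wiring.of_S30 h30 hg hp φ) P

end Fermat.Agent.S42.Final
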